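import Fermat.Agent.S14.Approx

set_option autoImplicit false
set_option linter.style.haveILetI false

namespace Fermat.Agent.S14

open IsDedekindDomain NumberField

namespace Kap

variable {p : ℕ} [hpf : Fact p.Prime] {r : ℕ}

open Classical in
/-- `n ↦ log χ (n mod r)` (zero if `n` is not prime to `r`). -/
noncomputable def L (χ : (ZMod r)ˣ →* Multiplicative (ZMod p)) (n : ℕ) : ZMod p :=
  if h : n.Coprime r then Multiplicative.toAdd (χ (ZMod.unitOfCoprime n h)) else 0

variable (χ : (ZMod r)ˣ →* Multiplicative (ZMod p))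

lemma L_of_coprime {n : ℕ} (h : n.Coprime r) :
    L χ n = Multiplicative.toAdd (χ (ZMod.unitOfCoprime n h)) := dif_pos h

lemma L_eq_of_unit {n : ℕ} (h : n.Coprime r) (u : (ZMod r)ˣ) (hu : (u : ZMod r) = n) :
    L χ n = Multiplicative.toAdd (χ u) := by
  rw [L_of_coprime χ h]
  congr 2
  ext
  rw [ZMod.coe_unitOfCoprime, hu]

lemma L_mul {m n : ℕ} (hm : m.Coprime r) (hn : n.Coprime r) : L χ (m * n) = L χ m + L χ n := by
  rw [L_eq_of_unit χ (Nat.Coprime.mul_left hm hn) (ZMod.unitOfCoprime m hm * ZMod.unitOfCoprime n hn)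
    (by simp), map_mul, toAdd_mul, L_of_coprime χ hm, L_of_coprime χ hn]

lemma L_one : L χ 1 = 0 := by
  rw [L_eq_of_unit χ (Nat.coprime_one_left r) 1 (by simp), map_one, toAdd_one]

lemma L_pow {n : ℕ} (hn : n.Coprime r) (k : ℕ) : L χ (n ^ k) = k * L χ n := by
  induction k with
  | zero => simp [L_one]
  | succ k ih =>
    rw [pow_succ, L_mul χ (Nat.Coprime.pow_left k hn) hn, ih]
    push_cast
    ring

lemma L_prod {ι : Type*} (s : Finset ι) (f : ι → ℕ) (hf : ∀ i ∈ s, (f i).Coprime r) :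
    L χ (∏ i ∈ s, f i) = ∑ i ∈ s, L χ (f i) := by
  classical
  induction s using Finset.induction_on with
  | empty => simp [L_one]
  | insert a s ha ih =>
    rw [Finset.prod_insert ha, Finset.sum_insert ha,
      L_mul χ (hf a (Finset.mem_insert_self a s))
        (Nat.Coprime.prod_left fun i hi => hf i (Finset.mem_insert_of_mem hi)),
      ih fun i hi => hf i (Finset.mem_insert_of_mem hi)]

lemma L_congr {m n : ℕ} (hm : m.Coprime r) (hn : n.Coprime r) (h : (m : ZMod r) = n) :
    L χ m = L χ n := by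
  rw [L_eq_of_unit χ hm (ZMod.unitOfCoprime n hn) (by simp [h]), L_of_coprime χ hn]

/-- `χ (-1) = 0` since `p` is odd. -/
lemma toAdd_neg_one (hp : p ≠ 2) : Multiplicative.toAdd (χ (-1)) = 0 := by
  have h : Multiplicative.toAdd (χ (-1)) + Multiplicative.toAdd (χ (-1)) = 0 := by
    rw [← toAdd_mul, ← map_mul]; simp
  have h2 : (2 : ZMod p) * Multiplicative.toAdd (χ (-1)) = 0 := by rw [two_mul]; exact h
  have h3 : (2 : ZMod p) ≠ 0 := by
    intro h0
    have : ((2 : ℕ) : ZMod p) = 0 := by exact_mod_cast h0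
    rw [ZMod.natCast_eq_zero_iff] at this
    exact hp ((Nat.prime_dvd_prime_iff_eq hpf.out Nat.prime_two).mp this)
  exact (mul_eq_zero.mp h2).resolve_left h3

lemma L_congr_neg (hp : p ≠ 2) {m n : ℕ} (hm : m.Coprime r) (hn : n.Coprime r)
    (h : (m : ZMod r) = -n) : L χ m = L χ n := by
  rw [L_eq_of_unit χ hm (-1 * ZMod.unitOfCoprime n hn) (by simp [h]), map_mul, toAdd_mul,
    toAdd_neg_one χ hp, zero_add, L_of_coprime χ hn]


section field

variable {F : Type*} [Field F] [NumberField F]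

omit hpf in
lemma ord_eq_count_factors (v : Pl F) {a : 𝓞 F} (ha : a ≠ 0) :
    ord v (a : F) = ((Associates.mk v.asIdeal).count
      (Associates.mk (Ideal.span {a} : Ideal (𝓞 F))).factors : ℤ) := by
  rw [ord, show ((a : 𝓞 F) : F) = algebraMap (𝓞 F) F a from rfl,
    HeightOneSpectrum.valuation_of_algebraMap, HeightOneSpectrum.intValuation_if_neg v ha,
    WithZero.log_exp, neg_neg]

omit hpf in
lemma coprime_absNorm_of_not_above (hr : r.Prime) (v : Pl F) (hv : ¬ Above r v) :
    (Ideal.absNorm v.asIdeal).Coprime r := by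
  obtain ⟨q, hq, hqv⟩ := exists_above v
  have h1 : Ideal.absNorm v.asIdeal ∣ q ^ Module.finrank ℤ (𝓞 F) := by
    rw [← Ideal.absNorm_span_natCast]
    exact Ideal.absNorm_dvd_absNorm_of_le ((Ideal.span_singleton_le_iff_mem _).mpr hqv)
  have hqr : q ≠ r := fun h => hv (h ▸ hqv)
  exact Nat.Coprime.coprime_dvd_left h1
    (Nat.Coprime.pow_left _ ((Nat.coprime_primes hq hr).mpr hqr))

omit hpf in
lemma not_coprime_absNorm_of_above (v : Pl F) (hv : Above r v) :
    ¬ (Ideal.absNorm v.asIdeal).Coprime r := by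
  intro hcop
  have h1 : Ideal.absNorm v.asIdeal ∣ r ^ Module.finrank ℤ (𝓞 F) := by
    rw [← Ideal.absNorm_span_natCast]
    exact Ideal.absNorm_dvd_absNorm_of_le ((Ideal.span_singleton_le_iff_mem _).mpr hv)
  have h2 : Ideal.absNorm v.asIdeal = 1 :=
    Nat.Coprime.eq_one_of_dvd (Nat.Coprime.pow_right _ hcop) h1
  exact v.isPrime.ne_top (Ideal.absNorm_eq_one_iff.mp h2)

/-- **Claim A**: `∑_v ord_v(α) log χ(Nv) = log χ(N(α))` for an integer `α` prime to `r`. -/
lemma pair_L_absNorm (hr : r.Prime) {a : 𝓞 F} (ha : a ≠ 0)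
    (har : ∀ v : Pl F, Above r v → ord v (a : F) = 0) :
    pair (fun v : Pl F => L χ (Ideal.absNorm v.asIdeal)) (a : F) =
      L χ (Ideal.absNorm (Ideal.span {a})) := by
  classical
  have hI : (Ideal.span {a} : Ideal (𝓞 F)) ≠ 0 := by
    rw [Ideal.zero_eq_bot, Ne, Ideal.span_singleton_eq_bot]; exact ha
  have hfin : (Function.mulSupport fun v : Pl F => v.maxPowDividing (Ideal.span {a})).Finite :=
    Ideal.hasFiniteMulSupport hI
  set s : Finset (Pl F) := hfin.toFinset with hs
  have hfac : (Ideal.span {a} : Ideal (𝓞 F)) = ∏ v ∈ s, v.maxPowDividing (Ideal.span {a}) := by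
    conv_lhs => rw [← Ideal.finprod_heightOneSpectrum_factorization hI]
    exact finprod_eq_prod_of_mulSupport_toFinset_subset _ hfin (Finset.Subset.refl _)
  have hord : ∀ v : Pl F, v ∉ s → ord v (a : F) = 0 := by
    intro v hv
    rw [hs, Set.Finite.mem_toFinset, Function.mem_mulSupport, not_not,
      HeightOneSpectrum.maxPowDividing] at hv
    rw [ord_eq_count_factors v ha]
    by_contra hne
    have hpos : (Associates.mk v.asIdeal).count
        (Associates.mk (Ideal.span {a} : Ideal (𝓞 F))).factors ≠ 0 := by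
      intro h0; apply hne; rw [h0]; rfl
    have : v.asIdeal = 1 := by
      exact (pow_eq_one_iff.mp hv).resolve_right hpos
    exact v.isPrime.ne_top (by rw [this, Ideal.one_eq_top])
  rw [pair_eq_sum _ _ s (fun v hv => Or.inl (hord v hv))]
  conv_rhs => rw [hfac, map_prod]
  rw [L_prod]
  · refine Finset.sum_congr rfl fun v _ => ?_
    rw [HeightOneSpectrum.maxPowDividing, map_pow, ord_eq_count_factors v ha]
    by_cases hv : Above r v
    · have h0 := har v hv
      rw [ord_eq_count_factors v ha] at h0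
      have h0' : (Associates.mk v.asIdeal).count
        (Associates.mk (Ideal.span {a} : Ideal (𝓞 F))).factors = 0 := by exact_mod_cast h0
      rw [h0']
      simp [L_one]
    · rw [L_pow χ (coprime_absNorm_of_not_above hr v hv)]
      simp
  · intro v _
    rw [HeightOneSpectrum.maxPowDividing, map_pow]
    by_cases hv : Above r v
    · have h0 := har v hv
      rw [ord_eq_count_factors v ha] at h0
      have h0' : (Associates.mk v.asIdeal).count
        (Associates.mk (Ideal.span {a} : Ideal (𝓞 F))).factors = 0 := by exact_mod_cast h0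
      rw [h0', pow_zero]
      exact Nat.coprime_one_left r
    · exact Nat.Coprime.pow_left _ (coprime_absNorm_of_not_above hr v hv)


omit hpf in
lemma exists_above_prime (hr : r.Prime) : ∃ v : Pl F, Above r v := by
  have hne : (Ideal.span {(r : 𝓞 F)} : Ideal (𝓞 F)) ≠ ⊤ := by
    intro h
    have h1 := Ideal.absNorm_span_natCast (S := 𝓞 F) r
    rw [h, Ideal.absNorm_top] at h1
    have h2 : 0 < Module.finrank ℤ (𝓞 F) := by
      rw [RingOfIntegers.rank]; exact Module.finrank_pos
    have := Nat.one_lt_pow h2.ne' hr.one_lt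
    omega
  obtain ⟨M, hM, hle⟩ := Ideal.exists_le_maximal _ hne
  have hrM : (r : 𝓞 F) ∈ M := hle (Ideal.mem_span_singleton_self _)
  refine ⟨⟨M, hM.isPrime, ?_⟩, hrM⟩
  intro hbot
  rw [hbot, Ideal.mem_bot] at hrM
  exact hr.ne_zero (by exact_mod_cast hrM)

omit hpf in
/-- an integer lying in a place above `r` is divisible by `r` -/
lemma dvd_of_intCast_mem (hr : r.Prime) {v : Pl F} (hv : Above r v) {m : ℤ}
    (hm : (m : 𝓞 F) ∈ v.asIdeal) : (r : ℤ) ∣ m := by
  by_contra hnd
  have hcop : IsCoprime (r : ℤ) m :=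
    (Prime.coprime_iff_not_dvd (Nat.prime_iff_prime_int.mp hr)).mpr hnd
  obtain ⟨a, b, hab⟩ := hcop
  have h1 : (1 : 𝓞 F) ∈ v.asIdeal := by
    have : ((a * r + b * m : ℤ) : 𝓞 F) = 1 := by rw [hab]; simp
    rw [← this]
    push_cast
    exact v.asIdeal.add_mem (v.asIdeal.mul_mem_left _ hv) (v.asIdeal.mul_mem_left _ hm)
  exact v.isPrime.ne_top ((Ideal.eq_top_iff_one _).mpr h1)

omit hpf in
/-- **Claim B**: the norm of an integer congruent to `n` modulo all places above `r`. -/
lemma norm_sub_pow_dvd [IsGalois ℚ F] (hr : r.Prime) (a : 𝓞 F) (n : ℕ)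
    (han : ∀ v : Pl F, Above r v → a - n ∈ v.asIdeal) :
    (r : ℤ) ∣ Algebra.norm ℤ a - (n : ℤ) ^ Module.finrank ℚ F := by
  classical
  obtain ⟨v0, hv0⟩ := exists_above_prime (F := F) hr
  apply dvd_of_intCast_mem hr hv0
  have hprod : ((Algebra.norm ℤ a : ℤ) : 𝓞 F) =
      ∏ σ : F ≃ₐ[ℚ] F, RingOfIntegers.mapRingEquiv (σ : F ≃+* F) a := by
    apply RingOfIntegers.coe_injective
    have h1 := Algebra.norm_eq_prod_automorphisms ℚ (a : F)
    rw [← Algebra.coe_norm_int] at h1
    simp only [map_intCast, map_prod]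
    simpa using h1
  rw [← Ideal.Quotient.eq_zero_iff_mem]
  push_cast
  rw [hprod, map_sub, map_prod, map_pow, map_natCast]
  have hσ : ∀ σ : F ≃ₐ[ℚ] F, Ideal.Quotient.mk v0.asIdeal
      (RingOfIntegers.mapRingEquiv (σ : F ≃+* F) a) = (n : 𝓞 F ⧸ v0.asIdeal) := by
    intro σ
    have h1 : a - n ∈ (sigmaPl σ⁻¹ v0).asIdeal := han _ ((above_sigmaPl σ⁻¹ r v0).mpr hv0)
    have h2 : RingOfIntegers.mapRingEquiv (σ : F ≃+* F) (a - n) ∈ v0.asIdeal := h1
    rw [map_sub, map_natCast, ← Ideal.Quotient.eq_zero_iff_mem, map_sub, map_natCast,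
      sub_eq_zero] at h2
    exact h2
  rw [Finset.prod_congr rfl fun σ _ => hσ σ, Finset.prod_const, Finset.card_univ,
    ← Nat.card_eq_fintype_card, IsGalois.card_aut_eq_finrank, sub_self]

lemma L_absNorm_span [IsGalois ℚ F] (hp : p ≠ 2) (hr : r.Prime) (a : 𝓞 F) {n : ℕ}
    (hn : n.Coprime r) (han : ∀ v : Pl F, Above r v → a - n ∈ v.asIdeal) :
    L χ (Ideal.absNorm (Ideal.span {a})) = L χ (n ^ Module.finrank ℚ F) := by
  have hdvd := norm_sub_pow_dvd hr a n han
  set d := Module.finrank ℚ F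
  set N := Algebra.norm ℤ a with hN
  have hcast : ((N : ℤ) : ZMod r) = ((n ^ d : ℕ) : ZMod r) := by
    have := (ZMod.intCast_zmod_eq_zero_iff_dvd (N - (n : ℤ) ^ d) r).mpr hdvd
    push_cast at this ⊢
    exact sub_eq_zero.mp this
  have hnd : (n ^ d).Coprime r := Nat.Coprime.pow_left d hn
  rw [Ideal.absNorm_span_singleton, ← hN]
  have hcop : N.natAbs.Coprime r := by
    rw [Nat.coprime_comm, Nat.Prime.coprime_iff_not_dvd hr]
    intro h
    have h1 : (r : ℤ) ∣ N := Int.natCast_dvd.mpr h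
    have h2 : ((N : ℤ) : ZMod r) = 0 := (ZMod.intCast_zmod_eq_zero_iff_dvd N r).mpr h1
    rw [hcast, ZMod.natCast_eq_zero_iff] at h2
    exact (Nat.Prime.coprime_iff_not_dvd hr).mp hnd.symm h2
  rcases Int.natAbs_eq N with h | h
  · apply L_congr χ hcop hnd
    rw [← hcast]
    conv_rhs => rw [h]
    simp
  · apply L_congr_neg χ hp hcop hnd
    rw [← hcast]
    conv_rhs => rw [h]
    simp


omit hpf in
lemma valuation_pow_sub_one_le (v : Pl F) {n : ℕ} {u : F}
    (hu : v.valuation F (u - 1) ≤ WithZero.exp (-(n : ℤ))) (k : ℕ) :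
    v.valuation F (u ^ k - 1) ≤ WithZero.exp (-(n : ℤ)) := by
  induction k with
  | zero => simp
  | succ k ih => rw [pow_succ]; exact valuation_mul_sub_one_le v ih hu

omit hpf in
/-- A denominator prime to `r` for an element which is a unit at the places above `r`. -/
lemma exists_natCast_mul_eq (hr : r.Prime) {δ : F}
    (hδ : ∀ v : Pl F, Above r v → ord v δ = 0) :
    ∃ (n : ℕ) (a : 𝓞 F), n.Coprime r ∧ (a : F) = n * δ := by
  by_cases hδ0 : δ = 0
  · exact ⟨1, 0, Nat.coprime_one_left r, by simp [hδ0]⟩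
  obtain ⟨x, y, hy, hxy⟩ := IsFractionRing.div_surjective (A := 𝓞 F) δ
  have hy0 : y ≠ 0 := nonZeroDivisors.ne_zero hy
  have hmem : ((Ideal.absNorm (Ideal.span {y}) : ℕ) : 𝓞 F) ∈ Ideal.span {y} := Ideal.absNorm_mem _
  obtain ⟨c, hc⟩ := Ideal.mem_span_singleton'.mp hmem
  set d := Ideal.absNorm (Ideal.span {y}) with hd
  have hd0 : d ≠ 0 := by
    rw [hd, Ne, Ideal.absNorm_eq_zero_iff, Ideal.span_singleton_eq_bot]; exact hy0
  have hyF : (algebraMap (𝓞 F) F y) ≠ 0 := by
    intro h; exact hy0 (RingOfIntegers.coe_injective (by simpa using h))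
  have hdδ : (d : F) * δ = ((c * x : 𝓞 F) : F) := by
    have h1 : (d : F) = (c : F) * (y : F) := by
      have := congrArg (fun z : 𝓞 F => (z : F)) hc
      simpa using this.symm
    rw [h1, ← hxy]
    push_cast
    field_simp
  obtain ⟨k, n, hn, hdn⟩ := Nat.exists_eq_pow_mul_and_not_dvd hd0 r hr.ne_one
  have hn0 : n ≠ 0 := by rintro rfl; exact hn (dvd_zero r)
  have hnF : (n : F) ≠ 0 := Nat.cast_ne_zero.mpr hn0
  have hrF : (r : F) ≠ 0 := Nat.cast_ne_zero.mpr hr.ne_zero
  have hcop : n.Coprime r := ((Nat.Prime.coprime_iff_not_dvd hr).mpr hn).symm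
  have hint : ∀ w : Pl F, 0 ≤ ord w ((n : F) * δ) := by
    intro w
    by_cases hw : Above r w
    · rw [ord_mul w hnF hδ0, hδ w hw, add_zero]
      have := ord_nonneg_of_integer w (n : 𝓞 F)
      simpa using this
    · have hr0 : ord w (r : F) = 0 := by
        have h1 := ord_nonneg_of_integer w (r : 𝓞 F)
        have h2 := (ord_pos_iff_mem w (a := (r : 𝓞 F)) (Nat.cast_ne_zero.mpr hr.ne_zero)).not.mpr hw
        have h3 : ord w (((r : 𝓞 F)) : F) = 0 := by omega
        simpa using h3
      have h4 : (d : F) * δ = (r : F) ^ k * ((n : F) * δ) := by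
        rw [hdn]; push_cast; ring
      have h5 := ord_nonneg_of_integer w (c * x)
      rw [← hdδ, h4, ord_mul w (pow_ne_zero k hrF) (mul_ne_zero hnF hδ0), ord_pow, hr0, mul_zero,
        zero_add] at h5
      exact h5
  obtain ⟨a, ha⟩ := exists_integer_of_ord_nonneg hint
  exact ⟨n, a, hcop, ha⟩

/-- Explicit cyclotomic reciprocity, general Galois form. -/
theorem pair_L_eq_zero [IsGalois ℚ F] (hp : p ≠ 2) (hr : r.Prime) (γ : F) (hγ : γ ≠ 0)
    (h1 : ∀ v : Pl F, Above r v → LocPow p v 1 γ) :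
    pair (fun v : Pl F => L χ (Ideal.absNorm v.asIdeal)) γ = 0 := by
  classical
  set m : Pl F → ZMod p := fun v : Pl F => L χ (Ideal.absNorm v.asIdeal) with hm
  -- simultaneous approximation of the local roots
  let cv : Pl F → F := fun v => if h : Above r v then (h1 v h).choose else 1
  have hcv0 : ∀ v, cv v ≠ 0 := by
    intro v
    by_cases h : Above r v
    · simp only [cv, dif_pos h]; exact (h1 v h).choose_spec.1
    · simp only [cv, dif_neg h]; exact one_ne_zero
  have hcv : ∀ v, Above r v →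
      v.valuation F (γ / cv v ^ p - 1) ≤ WithZero.exp (-((1 : ℕ) : ℤ)) := by
    intro v h
    simp only [cv, dif_pos h]; exact (h1 v h).choose_spec.2
  obtain ⟨x, hx0, hx⟩ := exists_approx (finite_above (F := F) r hr.ne_zero).toFinset cv
    (fun v _ => hcv0 v) 1
  set δ := γ / x ^ p with hδdef
  have hδ0 : δ ≠ 0 := div_ne_zero hγ (pow_ne_zero p hx0)
  have hδ1 : ∀ v : Pl F, Above r v → v.valuation F (δ - 1) ≤ WithZero.exp (-((1 : ℕ) : ℤ)) := by
    intro v hv
    have hxv := hx v ((Set.Finite.mem_toFinset _).mpr hv)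
    have e : δ = (γ / cv v ^ p) * ((x / cv v) ^ p)⁻¹ := by
      rw [hδdef, div_pow]
      have := hcv0 v
      field_simp
    rw [e]
    exact valuation_mul_sub_one_le v (hcv v hv)
      (valuation_inv_sub_one_le v le_rfl (valuation_pow_sub_one_le v hxv p))
  have hlt : ∀ v : Pl F, Above r v → v.valuation F (δ - 1) < 1 := fun v hv =>
    (hδ1 v hv).trans_lt (exp_neg_natCast_lt_one le_rfl)
  have hpair : pair m γ = pair m δ := by
    have e : γ = δ * x ^ p := by rw [hδdef]; field_simp
    rw [e, pair_mul m hδ0 (pow_ne_zero p hx0), pair_ppow, add_zero]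
  rw [hpair]
  obtain ⟨n, a, hn, ha⟩ := exists_natCast_mul_eq hr
    (fun v hv => ord_eq_zero_of_valuation_sub_one_lt v (hlt v hv))
  have hn0 : n ≠ 0 := by
    rintro rfl
    rw [Nat.coprime_zero_left] at hn
    exact hr.ne_one hn
  have hnF : (n : F) ≠ 0 := Nat.cast_ne_zero.mpr hn0
  have ha0 : a ≠ 0 := by
    rintro rfl
    have : (n : F) * δ = 0 := by rw [← ha]; simp
    exact (mul_ne_zero hnF hδ0) this
  have haF : (a : F) ≠ 0 := by rw [ha]; exact mul_ne_zero hnF hδ0
  have han : ∀ v : Pl F, Above r v → a - n ∈ v.asIdeal := by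
    intro v hv
    rw [← v.valuation_lt_one_iff_mem (K := F)]
    have e : algebraMap (𝓞 F) F (a - n) = (n : F) * (δ - 1) := by
      rw [map_sub, map_natCast, show algebraMap (𝓞 F) F a = (a : F) from rfl, ha]; ring
    change v.valuation F (algebraMap (𝓞 F) F (a - n)) < 1
    rw [e, map_mul]
    have h2 : v.valuation F (n : F) ≤ 1 := by
      have := v.valuation_le_one (K := F) (n : 𝓞 F)
      simpa using this
    calc v.valuation F (n : F) * v.valuation F (δ - 1) ≤ 1 * v.valuation F (δ - 1) :=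
          mul_le_mul_left h2 _
      _ < 1 := by rw [one_mul]; exact hlt v hv
  have hnv : ∀ v : Pl F, Above r v → (n : 𝓞 F) ∉ v.asIdeal := by
    intro v hv hmem
    have : (r : ℤ) ∣ (n : ℤ) := dvd_of_intCast_mem hr hv (by simpa using hmem)
    have h3 : r ∣ n := by exact_mod_cast this
    exact (Nat.Prime.coprime_iff_not_dvd hr).mp hn.symm h3
  have hordn : ∀ v : Pl F, Above r v → ord v (((n : 𝓞 F)) : F) = 0 := by
    intro v hv
    have h1 := ord_nonneg_of_integer v (n : 𝓞 F)
    have h2 := (ord_pos_iff_mem v (a := (n : 𝓞 F)) (Nat.cast_ne_zero.mpr hn0)).not.mpr (hnv v hv)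
    omega
  have horda : ∀ v : Pl F, Above r v → ord v (a : F) = 0 := by
    intro v hv
    have h1 := ord_nonneg_of_integer v a
    have h3 : a ∉ v.asIdeal := by
      intro hmem
      apply hnv v hv
      have := v.asIdeal.sub_mem hmem (han v hv)
      simpa using this
    have h2 := (ord_pos_iff_mem v ha0).not.mpr h3
    omega
  have e : δ = (a : F) / (((n : 𝓞 F)) : F) := by
    rw [ha]; push_cast; field_simp
  rw [e, pair_div m haF (by simpa using hnF), hm, pair_L_absNorm χ hr ha0 horda,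
    pair_L_absNorm χ hr (Nat.cast_ne_zero.mpr hn0) hordn, L_absNorm_span χ hp hr a hn han,
    Ideal.absNorm_span_natCast, RingOfIntegers.rank, sub_self]

end field

end Kap

end Fermat.Agent.S14
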