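import Fermat.Agent.S14.Approx
import Fermat.Agent.S14.Gauss.KapCore

set_option autoImplicit false

/-!
# S14 / GS2: the cyclotomic class functionals
-/

namespace Fermat.Agent.S14

open IsDedekindDomain NumberField

variable {p : ℕ} [Fact p.Prime] {K : Type*} [Field K] [NumberField K]
  [IsCyclotomicExtension {p} ℚ K]

open Classical in
/-- The function on places `v ↦ log χ(Nv)` (zero above `p` and above `r`). -/
noncomputable def kap {r : ℕ} (χ : (ZMod r)ˣ →* Multiplicative (ZMod p)) (v : Pl K) : ZMod p :=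
  if h : (Ideal.absNorm v.asIdeal).Coprime r ∧ ¬ Above p v then
    Multiplicative.toAdd (χ (ZMod.unitOfCoprime _ h.1)) else 0

omit [IsCyclotomicExtension {p} ℚ K] in
open Classical in
lemma kap_eq_ite {r : ℕ} (χ : (ZMod r)ˣ →* Multiplicative (ZMod p)) (v : Pl K) :
    kap χ v = if Above p v then 0 else Kap.L χ (Ideal.absNorm v.asIdeal) := by
  unfold kap Kap.L
  by_cases h1 : Above p v
  · rw [dif_neg (fun h => h.2 h1), if_pos h1]
  · rw [if_neg h1]
    by_cases h2 : (Ideal.absNorm v.asIdeal).Coprime r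
    · rw [dif_pos ⟨h2, h1⟩, dif_pos h2]
    · rw [dif_neg (fun h => h2 h.1), dif_neg h2]

theorem kap_sigmaPl {r : ℕ} (χ : (ZMod r)ˣ →* Multiplicative (ZMod p)) (σ : K ≃ₐ[ℚ] K)
    (v : Pl K) : kap χ (sigmaPl σ v) = kap χ v := by
  classical
  rw [kap_eq_ite, kap_eq_ite, absNorm_sigmaPl]
  simp only [above_sigmaPl]

theorem coprime_absNorm_iff {r : ℕ} (hr : r.Prime) (v : Pl K) :
    (Ideal.absNorm v.asIdeal).Coprime r ↔ ¬ Above r v :=
  ⟨fun h hv => Kap.not_coprime_absNorm_of_above v hv h, Kap.coprime_absNorm_of_not_above hr v⟩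

/-- Explicit cyclotomic reciprocity: `kap χ` kills the divisor of every `γ` which is a local
`p`-th power at the places above `r` (and has `p ∣ ord` above `p`). -/
theorem pair_kap_eq_zero (hp : p ≠ 2) {r : ℕ} (hr : r.Prime) (hrp : r ≠ p)
    (χ : (ZMod r)ˣ →* Multiplicative (ZMod p)) (γ : K) (hγ : γ ≠ 0)
    (h1 : ∀ v : Pl K, Above r v → LocPow p v 1 γ) (h2 : ∀ v : Pl K, Above p v → (p : ℤ) ∣ ord v γ) :
    pair (kap χ) γ = 0 := by
  classical
  haveI : IsGalois ℚ K := IsCyclotomicExtension.isGalois {p} ℚ K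
  rw [← Kap.pair_L_eq_zero χ hp hr γ hγ h1]
  unfold pair
  apply finsum_congr
  intro v
  rw [kap_eq_ite]
  by_cases hv : Above p v
  · rw [if_pos hv, (ZMod.intCast_zmod_eq_zero_iff_dvd _ _).mpr (h2 v hv)]
    simp
  · rw [if_neg hv]

end Fermat.Agent.S14
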