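import Fermat.Agent.S14.Gauss.Kap
import Fermat.Agent.S14.Core.Deg

set_option autoImplicit false

/-!
# S14 / GS3: independence of two cyclotomic class functionals (Dirichlet's theorem)
-/

namespace Fermat.Agent.S14

open IsDedekindDomain NumberField

variable {p : ℕ} [Fact p.Prime] {K : Type*} [Field K] [NumberField K]
  [IsCyclotomicExtension {p} ℚ K]

omit [IsCyclotomicExtension {p} ℚ K] in
/-- Value of `kap` at a place whose norm has a known residue class. -/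
theorem kap_eq_of_absNorm {r : ℕ} (χ : (ZMod r)ˣ →* Multiplicative (ZMod p)) (v : Pl K)
    (hc : (Ideal.absNorm v.asIdeal).Coprime r) (hp : ¬ Above p v) (u : (ZMod r)ˣ)
    (hu : ((Ideal.absNorm v.asIdeal : ℕ) : ZMod r) = (u : ZMod r)) :
    kap χ v = Multiplicative.toAdd (χ u) := by
  unfold kap
  rw [dif_pos ⟨hc, hp⟩]
  congr 2
  apply Units.ext
  rw [ZMod.coe_unitOfCoprime, hu]

/-- A simultaneous congruence modulo three pairwise distinct primes, solved by a large prime. -/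
theorem exists_prime_three_congr {a b c : ℕ} (ha : a.Prime) (hb : b.Prime) (hc : c.Prime)
    (hab : a ≠ b) (hac : a ≠ c) (hbc : b ≠ c) (u : (ZMod b)ˣ) (n : ℕ) :
    ∃ q : ℕ, n < q ∧ q.Prime ∧ q % a = 1 ∧ ((q : ℕ) : ZMod b) = (u : ZMod b) ∧
      ((q : ℕ) : ZMod c) = 1 := by
  have : NeZero b := ⟨hb.ne_zero⟩
  have cab : a.Coprime b := (Nat.coprime_primes ha hb).2 hab
  have cac : a.Coprime c := (Nat.coprime_primes ha hc).2 hac
  have cbc : b.Coprime c := (Nat.coprime_primes hb hc).2 hbc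
  have cabc : (a * b).Coprime c := Nat.Coprime.mul_left cac cbc
  obtain ⟨x, hx1, hx2⟩ := Nat.chineseRemainder cab 1 (u : ZMod b).val
  obtain ⟨y, hy1, hy2⟩ := Nat.chineseRemainder cabc x 1
  have hya : y ≡ 1 [MOD a] := (hy1.of_mul_right b).trans hx1
  have hyb : y ≡ (u : ZMod b).val [MOD b] := (hy1.of_mul_left a).trans hx2
  have hyb' : ((y : ℕ) : ZMod b) = (u : ZMod b) := by
    have := (ZMod.natCast_eq_natCast_iff _ _ _).2 hyb
    rwa [ZMod.natCast_zmod_val] at this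
  have c1 : y.Coprime a := by
    have : Nat.gcd y a = Nat.gcd 1 a := hya.gcd_eq
    simpa [Nat.Coprime] using this
  have c2 : y.Coprime b := by
    rw [← ZMod.isUnit_iff_coprime, hyb']
    exact u.isUnit
  have c3 : y.Coprime c := by
    have : Nat.gcd y c = Nat.gcd 1 c := hy2.gcd_eq
    simpa [Nat.Coprime] using this
  have cy : y.Coprime (a * b * c) := Nat.Coprime.mul_right (Nat.Coprime.mul_right c1 c2) c3
  have hne : a * b * c ≠ 0 := by
    have := ha.ne_zero; have := hb.ne_zero; have := hc.ne_zero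
    positivity
  obtain ⟨q, hqn, hq, hqy⟩ := Nat.forall_exists_prime_gt_and_modEq n hne cy
  have hqa : q ≡ 1 [MOD a] := by
    have h1 : q ≡ y [MOD a * b] := hqy.of_mul_right c
    exact (h1.of_mul_right b).trans hya
  have hqb : q ≡ y [MOD b] := by
    have h1 : q ≡ y [MOD a * b] := hqy.of_mul_right c
    exact h1.of_mul_left a
  have hqc : q ≡ 1 [MOD c] := (hqy.of_mul_left (a * b)).trans hy2
  refine ⟨q, hqn, hq, ?_, ?_, ?_⟩
  · have : q % a = 1 % a := hqa
    rwa [Nat.mod_eq_of_lt ha.one_lt] at this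
  · rw [(ZMod.natCast_eq_natCast_iff _ _ _).2 hqb, hyb']
  · have := (ZMod.natCast_eq_natCast_iff _ _ _).2 hqc
    simpa using this

/-- A place at which `kap χ₁ ≠ 0` and `kap χ₂ = 0`. -/
theorem exists_place_kap {r₁ r₂ : ℕ} (hr₁ : r₁.Prime) (hr₂ : r₂.Prime) (hne : r₁ ≠ r₂)
    (h₁ : r₁ ≠ p) (h₂ : r₂ ≠ p)
    (χ₁ : (ZMod r₁)ˣ →* Multiplicative (ZMod p)) (hχ₁ : Function.Surjective χ₁)
    (χ₂ : (ZMod r₂)ˣ →* Multiplicative (ZMod p)) (s : Finset (Pl K)) :
    ∃ v : Pl K, v ∉ s ∧ ¬ Above p v ∧ ¬ Above r₁ v ∧ ¬ Above r₂ v ∧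
      kap χ₁ v ≠ 0 ∧ kap χ₂ v = 0 := by
  have hp : p.Prime := Fact.out
  obtain ⟨u, hu⟩ := hχ₁ (Multiplicative.ofAdd 1)
  set n : ℕ := (s.sup fun v => Ideal.absNorm v.asIdeal) + p + r₁ + r₂ with hn
  obtain ⟨q, hqn, hq, hqp, hq1, hq2⟩ :=
    exists_prime_three_congr hp hr₁ hr₂ (Ne.symm h₁) (Ne.symm h₂) hne u n
  obtain ⟨v, hv⟩ := exists_place_above (F := K) q hq
  have hN : Ideal.absNorm v.asIdeal = q := absNorm_eq_of_mod_eq_one q hq hqp v hv
  have hqp' : q ≠ p := by omega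
  have hqr1 : q ≠ r₁ := by omega
  have hqr2 : q ≠ r₂ := by omega
  have cp : (Ideal.absNorm v.asIdeal).Coprime p := by
    rw [hN]; exact (Nat.coprime_primes hq hp).2 hqp'
  have c1 : (Ideal.absNorm v.asIdeal).Coprime r₁ := by
    rw [hN]; exact (Nat.coprime_primes hq hr₁).2 hqr1
  have c2 : (Ideal.absNorm v.asIdeal).Coprime r₂ := by
    rw [hN]; exact (Nat.coprime_primes hq hr₂).2 hqr2
  have ap : ¬ Above p v := (coprime_absNorm_iff hp v).1 cp
  refine ⟨v, ?_, ap, (coprime_absNorm_iff hr₁ v).1 c1,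
    (coprime_absNorm_iff hr₂ v).1 c2, ?_, ?_⟩
  · intro hvs
    have : Ideal.absNorm v.asIdeal ≤ s.sup fun v => Ideal.absNorm v.asIdeal :=
      Finset.le_sup (f := fun v : Pl K => Ideal.absNorm v.asIdeal) hvs
    omega
  · rw [kap_eq_of_absNorm χ₁ v c1 ap u (by rw [hN, hq1]), hu]
    simp
  · rw [kap_eq_of_absNorm χ₂ v c2 ap 1 (by rw [hN, hq2]; simp)]
    simp

end Fermat.Agent.S14
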