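import Fermat.Agent.S14.Symbol
import Fermat.Agent.S14.Lambda

set_option autoImplicit false
set_option linter.unusedSectionVars false

/-!
# S14 / GS1: `p`-th powers of Gauss sums
-/

namespace Fermat.Agent.S14

open IsDedekindDomain NumberField Finset

namespace GS

section general

universe u

variable {p r : ℕ} [Fact p.Prime] [Fact r.Prime]

/-- The `p`-th power of the Gauss sum of a character of order `p`, written with Jacobi sums. -/
noncomputable def gaussPhi {R : Type*} [CommRing R] (p : ℕ) (ψ : MulChar (ZMod r) R) : R :=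
  ψ (-1) * (r : R) * ∏ j ∈ Ico 1 (p - 1), jacobiSum ψ (ψ ^ j)

lemma gaussPhi_ringHomComp {R R' : Type*} [CommRing R] [CommRing R'] (ψ : MulChar (ZMod r) R)
    (f : R →+* R') : gaussPhi p (ψ.ringHomComp f) = f (gaussPhi p ψ) := by
  simp only [gaussPhi, map_mul, map_prod, map_natCast, ← jacobiSum_ringHomComp,
    MulChar.ringHomComp_pow, MulChar.ringHomComp_apply]

lemma gaussSum_pow_eq_gaussPhi {R : Type*} [CommRing R] [IsDomain R] {ψ : MulChar (ZMod r) R}
    (hψ : orderOf ψ = p) {e : AddChar (ZMod r) R} (he : e.IsPrimitive) :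
    gaussSum ψ e ^ p = gaussPhi p ψ := by
  have := gaussSum_pow_eq_prod_jacobiSum (χ := ψ) (ψ := e)
    (by rw [hψ]; exact (Fact.out : p.Prime).two_le) he
  rw [hψ, ZMod.card] at this
  exact this

lemma exists_field_addChar (k : Type u) [Field k] (h : (r : k) ≠ 0) :
    ∃ (L : Type u) (_ : Field L) (_ : Algebra k L) (e : AddChar (ZMod r) L), e.IsPrimitive := by
  have : NeZero (r : k) := ⟨h⟩
  exact ⟨CyclotomicField r k, inferInstance, inferInstance,
    AddChar.zmodChar r (IsCyclotomicExtension.zeta_pow r k _),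
    AddChar.zmodChar_primitive_of_primitive_root r (IsCyclotomicExtension.zeta_spec r k _)⟩

lemma orderOf_ringHomComp_eq {R R' : Type*} [CommRing R] [CommRing R'] {ψ : MulChar (ZMod r) R}
    (hψ : orderOf ψ = p) (f : R →+* R') (hne : ψ.ringHomComp f ≠ 1) :
    orderOf (ψ.ringHomComp f) = p := by
  refine orderOf_eq_prime ?_ hne
  rw [MulChar.ringHomComp_pow, ← hψ, pow_orderOf_eq_one, MulChar.ringHomComp_one]

lemma orderOf_pow_eq {R : Type*} [CommRing R] {ψ : MulChar (ZMod r) R}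
    (hψ : orderOf ψ = p) {k : ℕ} (hk : ¬ p ∣ k) : orderOf (ψ ^ k) = p := by
  rw [Nat.Coprime.orderOf_pow, hψ]
  rw [hψ]
  exact ((Fact.out : p.Prime).coprime_iff_not_dvd).mpr hk

lemma apply_neg_one_pow {R : Type*} [CommRing R] {ψ : MulChar (ZMod r) R}
    (hψ : orderOf ψ = p) : ψ (-1) ^ p = 1 := by
  rw [← MulChar.pow_apply' ψ (Fact.out : p.Prime).ne_zero, ← hψ, pow_orderOf_eq_one]
  exact MulChar.one_apply (isUnit_one.neg)

/-- `Φ(ψ) Φ(ψ^{p-1}) = r ^ p`, in a domain with a primitive additive character. -/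
lemma gaussPhi_mul_aux {R : Type*} [CommRing R] [IsDomain R] {ψ : MulChar (ZMod r) R}
    (hψ : orderOf ψ = p) {e : AddChar (ZMod r) R} (he : e.IsPrimitive) :
    gaussPhi p ψ * gaussPhi p (ψ ^ (p - 1)) = (r : R) ^ p := by
  have hp : p.Prime := Fact.out
  have h1 : ψ ≠ 1 := by
    intro h; rw [h, orderOf_one] at hψ; exact hp.one_lt.ne hψ
  have h2 : orderOf (ψ ^ (p - 1)) = p := orderOf_pow_eq hψ (by
    intro h
    have := Nat.le_of_dvd (by have := hp.two_le; omega) h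
    have := hp.two_le; omega)
  rw [← gaussSum_pow_eq_gaussPhi hψ he, ← gaussSum_pow_eq_gaussPhi h2 he, ← mul_pow]
  have := gaussSum_mul_gaussSum_pow_orderOf_sub_one h1 he
  rw [hψ, ZMod.card] at this
  rw [this, mul_pow, apply_neg_one_pow hψ, one_mul]

/-- `Φ(ψ)^k = Φ(ψ^k) * (∏ J)^p`. -/
lemma gaussPhi_pow_aux {R : Type*} [CommRing R] [IsDomain R] {ψ : MulChar (ZMod r) R}
    (hψ : orderOf ψ = p) {e : AddChar (ZMod r) R} (he : e.IsPrimitive) {k : ℕ} (hk0 : 0 < k)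
    (hkp : k < p) :
    gaussPhi p ψ ^ k = gaussPhi p (ψ ^ k) * (∏ j ∈ Ico 1 k, jacobiSum ψ (ψ ^ j)) ^ p := by
  have h2 : orderOf (ψ ^ k) = p := orderOf_pow_eq hψ (fun h => by
    have := Nat.le_of_dvd hk0 h; omega)
  rw [← gaussSum_pow_eq_gaussPhi hψ he, ← gaussSum_pow_eq_gaussPhi h2 he, ← mul_pow,
    ← gaussSum_pow_eq_prod_jacobiSum_aux ψ e hk0 (by rw [hψ]; exact hkp), ← pow_mul, ← pow_mul,
    mul_comm]

end general

section general2

variable {p r : ℕ} [Fact p.Prime] [Fact r.Prime]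

/-- The additive "logarithm" of the inverse of a character of order `p`. -/
lemma exists_chi {O : Type*} [CommRing O] [IsDomain O] {ζ₀ : O} (hζ₀ : IsPrimitiveRoot ζ₀ p)
    {ψ : MulChar (ZMod r) O} (hψ : orderOf ψ = p) :
    ∃ χ : (ZMod r)ˣ →* Multiplicative (ZMod p), Function.Surjective χ ∧
      ∀ u : (ZMod r)ˣ, ψ⁻¹ (u : ZMod r) = ζ₀ ^ (Multiplicative.toAdd (χ u)).val := by
  have hp : p.Prime := Fact.out
  have hinv : ψ⁻¹ ^ p = 1 := by rw [inv_pow, ← hψ, pow_orderOf_eq_one, inv_one]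
  have H : ∀ u : (ZMod r)ˣ, ∃ k < p, ψ⁻¹ (u : ZMod r) = ζ₀ ^ k := fun u =>
    MulChar.exists_apply_eq_pow hinv hζ₀ u.ne_zero
  choose k hk1 hk2 using H
  have hval : ∀ u, ((k u : ℕ) : ZMod p).val = k u := fun u => ZMod.val_cast_of_lt (hk1 u)
  have hmul : ∀ u v, ((k (u * v) : ℕ) : ZMod p) = (k u : ZMod p) + (k v : ZMod p) := by
    intro u v
    have h1 : ζ₀ ^ k (u * v) = ζ₀ ^ ((k u + k v) % p) := by
      rw [← pow_eq_pow_mod _ hζ₀.pow_eq_one, pow_add, ← hk2, ← hk2, ← hk2, Units.val_mul, map_mul]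
    have h2 := hζ₀.pow_inj (hk1 _) (Nat.mod_lt _ hp.pos) h1
    rw [h2, ZMod.natCast_mod]; push_cast; rfl
  let χ : (ZMod r)ˣ →* Multiplicative (ZMod p) :=
    MonoidHom.mk' (fun u => Multiplicative.ofAdd ((k u : ℕ) : ZMod p)) (by
      intro u v
      rw [hmul, ofAdd_add])
  have hχ : ∀ u, Multiplicative.toAdd (χ u) = ((k u : ℕ) : ZMod p) := fun u => rfl
  refine ⟨χ, ?_, ?_⟩
  · -- surjectivity
    have hex : ∃ u₀, ((k u₀ : ℕ) : ZMod p) ≠ 0 := by
      by_contra hcon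
      push Not at hcon
      have h1 : ψ⁻¹ = 1 := by
        ext u
        have h0 : k u = 0 := by rw [← hval u, hcon u, ZMod.val_zero]
        rw [hk2, h0, pow_zero, MulChar.one_apply_coe]
      rw [inv_eq_one] at h1
      rw [h1, orderOf_one] at hψ
      exact hp.one_lt.ne hψ
    obtain ⟨u₀, hu₀⟩ := hex
    intro t
    refine ⟨u₀ ^ (Multiplicative.toAdd t * ((k u₀ : ℕ) : ZMod p)⁻¹).val, ?_⟩
    apply Multiplicative.toAdd.injective
    rw [map_pow, toAdd_pow, hχ, nsmul_eq_mul, ZMod.natCast_val, ZMod.cast_id', id_eq,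
      mul_assoc, inv_mul_cancel₀ hu₀, mul_one]
  · intro u
    rw [hχ, hval, hk2]

/-- A nontrivial `p`-th root of unity is not congruent to `1` modulo a prime ideal not
containing `p`. -/
lemma natCast_mem_of_sub_one_mem {O : Type*} [CommRing O] [IsDomain O] (I : Ideal O) {y : O}
    (hy : y ^ p = 1) (hy1 : y ≠ 1) (hI : y - 1 ∈ I) : (p : O) ∈ I := by
  have h0 : ∑ i ∈ range p, y ^ i = 0 := by
    have := mul_neg_geom_sum y p
    have h2 : (1 - y) * ∑ i ∈ range p, y ^ i = 0 := by rw [this, hy, sub_self]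
    rcases mul_eq_zero.mp h2 with h | h
    · exact absurd (sub_eq_zero.mp h).symm hy1
    · exact h
  have h1 : (p : O) = ∑ i ∈ range p, (1 - y ^ i) := by
    rw [sum_sub_distrib, h0]; simp
  rw [h1]
  refine Ideal.sum_mem _ fun i _ => ?_
  obtain ⟨c, hc⟩ := sub_dvd_pow_sub_pow y 1 i
  have : 1 - y ^ i = (y - 1) * (-c) := by
    rw [one_pow] at hc
    rw [mul_neg, ← hc]; ring
  rw [this]
  exact Ideal.mul_mem_right _ _ hI

end general2

section frob

variable {p r : ℕ} [Fact p.Prime] [Fact r.Prime]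

/-- Frobenius computation in a field `L` over a finite field `k` with `N` elements. -/
lemma gaussSum_pow_card {k L : Type*} [Field k] [Fintype k] [Field L] [Algebra k L]
    (ψ : MulChar (ZMod r) k) (e : AddChar (ZMod r) L) (u : (ZMod r)ˣ)
    (hu : (u : ZMod r) = (Fintype.card k : ZMod r)) :
    gaussSum (ψ.ringHomComp (algebraMap k L)) e ^ Fintype.card k =
      (ψ.ringHomComp (algebraMap k L))⁻¹ u * gaussSum (ψ.ringHomComp (algebraMap k L)) e := by
  rw [← gaussSum_mulShift_eq]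
  have h1 : gaussSum (ψ.ringHomComp (algebraMap k L)) e ^ Fintype.card k =
      FiniteField.frobeniusAlgHom k L (gaussSum (ψ.ringHomComp (algebraMap k L)) e) := rfl
  rw [h1, gaussSum, gaussSum, map_sum]
  refine Finset.sum_congr rfl fun x _ => ?_
  rw [map_mul, MulChar.ringHomComp_apply, AlgHom.commutes, AddChar.mulShift_apply, hu,
    ← nsmul_eq_mul, AddChar.map_nsmul_eq_pow]
  rfl

end frob

section residue

variable {p r : ℕ} [Fact p.Prime] [Fact r.Prime] {F : Type*} [Field F] [NumberField F]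

lemma gaussPhi_pow_sub_mem (v : Pl F) (hvp : ¬ Above p v) (hvr : ¬ Above r v)
    {ψ : MulChar (ZMod r) (𝓞 F)} (hψ : orderOf ψ = p)
    (hdvd : p ∣ Ideal.absNorm v.asIdeal - 1)
    (hc : (Ideal.absNorm v.asIdeal).Coprime r) :
    gaussPhi p ψ ^ ((Ideal.absNorm v.asIdeal - 1) / p) - ψ⁻¹ (ZMod.unitOfCoprime _ hc : ZMod r)
      ∈ v.asIdeal := by
  classical
  have hp : p.Prime := Fact.out
  set N := Ideal.absNorm v.asIdeal with hN
  have := v.isMaximal
  let _ : Field (𝓞 F ⧸ v.asIdeal) := Ideal.Quotient.field v.asIdeal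
  have : Finite (𝓞 F ⧸ v.asIdeal) := Ideal.finiteQuotientOfFreeOfNeBot v.asIdeal v.ne_bot
  let _ : Fintype (𝓞 F ⧸ v.asIdeal) := Fintype.ofFinite _
  have hcard : Fintype.card (𝓞 F ⧸ v.asIdeal) = N := by
    rw [hN, Ideal.absNorm_apply, Submodule.cardQuot_apply, Nat.card_eq_fintype_card]
  have hr0 : ((r : ℕ) : 𝓞 F ⧸ v.asIdeal) ≠ 0 := by
    intro h
    apply hvr
    have : Ideal.Quotient.mk v.asIdeal (r : 𝓞 F) = 0 := by simpa using h
    exact Ideal.Quotient.eq_zero_iff_mem.mp this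
  obtain ⟨L, hL1, hL2, e, he⟩ := exists_field_addChar (r := r) (𝓞 F ⧸ v.asIdeal) hr0
  set ψ₁ : MulChar (ZMod r) (𝓞 F ⧸ v.asIdeal) := ψ.ringHomComp (Ideal.Quotient.mk v.asIdeal)
    with hψ₁
  have hψ₁ne : ψ₁ ≠ 1 := by
    intro h1
    have hne : ψ ≠ 1 := by
      intro h; rw [h, orderOf_one] at hψ; exact hp.one_lt.ne hψ
    obtain ⟨a, ha⟩ := MulChar.ne_one_iff.mp hne
    apply hvp
    refine natCast_mem_of_sub_one_mem (p := p) v.asIdeal (y := ψ a) ?_ ha ?_
    · rw [← MulChar.pow_apply_coe, ← hψ, pow_orderOf_eq_one, MulChar.one_apply_coe]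
    · have : ψ₁ a = 1 := by rw [h1, MulChar.one_apply_coe]
      rw [hψ₁, MulChar.ringHomComp_apply] at this
      rw [← Ideal.Quotient.eq, this, map_one]
  set ψ₂ : MulChar (ZMod r) L := ψ₁.ringHomComp (algebraMap _ L) with hψ₂
  have hinj : Function.Injective (algebraMap (𝓞 F ⧸ v.asIdeal) L) :=
    RingHom.injective (algebraMap (𝓞 F ⧸ v.asIdeal) L)
  have hψ₂ne : ψ₂ ≠ 1 := (MulChar.ringHomComp_ne_one_iff hinj).mpr hψ₁ne
  have ho₁ : orderOf ψ₁ = p := orderOf_ringHomComp_eq hψ _ hψ₁ne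
  have ho₂ : orderOf ψ₂ = p := orderOf_ringHomComp_eq ho₁ _ hψ₂ne
  set g := gaussSum ψ₂ e with hg
  have hrL : ((Fintype.card (ZMod r) : ℕ) : L) ≠ 0 := by
    rw [ZMod.card]
    intro h
    apply hr0
    apply hinj
    simpa using h
  have hg0 : g ≠ 0 := gaussSum_ne_zero_of_nontrivial hrL hψ₂ne he
  have hfrob := gaussSum_pow_card (L := L) ψ₁ e (ZMod.unitOfCoprime _ hc)
    (by rw [ZMod.coe_unitOfCoprime, hcard])
  rw [hcard, ← hψ₂, ← hg] at hfrob
  have hN1 : 1 ≤ N := by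
    rw [← hcard]; exact Fintype.card_pos
  have h3 : g ^ (N - 1) = ψ₂⁻¹ (ZMod.unitOfCoprime _ hc : ZMod r) := by
    apply mul_right_cancel₀ hg0
    rw [← pow_succ, Nat.sub_add_cancel hN1, hfrob]
  have h4 : g ^ (N - 1) = (gaussPhi p ψ₂) ^ ((N - 1) / p) := by
    rw [← gaussSum_pow_eq_gaussPhi ho₂ he, ← pow_mul, Nat.mul_div_cancel' hdvd]
  rw [← Ideal.Quotient.eq]
  apply hinj
  rw [map_pow, map_pow, ← gaussPhi_ringHomComp, ← gaussPhi_ringHomComp, ← hψ₁, ← hψ₂, ← h4, h3,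
    hψ₂, hψ₁, MulChar.ringHomComp_inv, MulChar.ringHomComp_inv, MulChar.ringHomComp_apply,
    MulChar.ringHomComp_apply]

end residue

section domain

variable {p r : ℕ} [Fact p.Prime] [Fact r.Prime]

universe u

lemma exists_embedding (O : Type u) [CommRing O] [IsDomain O] (hr : (r : O) ≠ 0) :
    ∃ (L : Type u) (_ : Field L) (f : O →+* L) (e : AddChar (ZMod r) L),
      Function.Injective f ∧ e.IsPrimitive := by
  have h : ((r : ℕ) : FractionRing O) ≠ 0 := by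
    intro h
    apply hr
    apply IsFractionRing.injective O (FractionRing O)
    simpa using h
  obtain ⟨L, hL1, hL2, e, he⟩ := exists_field_addChar (r := r) (FractionRing O) h
  refine ⟨L, hL1, (algebraMap (FractionRing O) L).comp (algebraMap O (FractionRing O)), e, ?_, he⟩
  exact (RingHom.injective (algebraMap (FractionRing O) L)).comp
    (IsFractionRing.injective O (FractionRing O))

lemma gaussPhi_mul {O : Type*} [CommRing O] [IsDomain O] (hr : (r : O) ≠ 0)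
    {ψ : MulChar (ZMod r) O} (hψ : orderOf ψ = p) :
    gaussPhi p ψ * gaussPhi p (ψ ^ (p - 1)) = (r : O) ^ p := by
  have hp : p.Prime := Fact.out
  obtain ⟨L, hL, f, e, hf, he⟩ := exists_embedding O hr
  have hne : ψ ≠ 1 := by
    intro h; rw [h, orderOf_one] at hψ; exact hp.one_lt.ne hψ
  have ho := orderOf_ringHomComp_eq hψ f ((MulChar.ringHomComp_ne_one_iff hf).mpr hne)
  apply hf
  rw [map_mul, ← gaussPhi_ringHomComp, ← gaussPhi_ringHomComp, ← MulChar.ringHomComp_pow,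
    gaussPhi_mul_aux ho he, map_pow, map_natCast]

lemma gaussPhi_pow {O : Type*} [CommRing O] [IsDomain O] (hr : (r : O) ≠ 0)
    {ψ : MulChar (ZMod r) O} (hψ : orderOf ψ = p) {k : ℕ} (hk0 : 0 < k) (hkp : k < p) :
    gaussPhi p ψ ^ k = gaussPhi p (ψ ^ k) * (∏ j ∈ Ico 1 k, jacobiSum ψ (ψ ^ j)) ^ p := by
  have hp : p.Prime := Fact.out
  obtain ⟨L, hL, f, e, hf, he⟩ := exists_embedding O hr
  have hne : ψ ≠ 1 := by
    intro h; rw [h, orderOf_one] at hψ; exact hp.one_lt.ne hψ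
  have ho := orderOf_ringHomComp_eq hψ f ((MulChar.ringHomComp_ne_one_iff hf).mpr hne)
  apply hf
  rw [map_pow, map_mul, map_pow, map_prod, ← gaussPhi_ringHomComp, ← gaussPhi_ringHomComp,
    ← MulChar.ringHomComp_pow, gaussPhi_pow_aux ho he hk0 hkp]
  simp only [← jacobiSum_ringHomComp, MulChar.ringHomComp_pow]

/-- `g(ψ) = -1 + (μ - 1) h` with `h` integral. -/
lemma gaussSum_eq_neg_one_add {L : Type*} [Field L] {ψ : MulChar (ZMod r) L} (hψ : ψ ^ p = 1)
    {μ : L} (hμ : IsPrimitiveRoot μ p) {e : AddChar (ZMod r) L} (he : e.IsPrimitive) :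
    ∃ h : L, IsIntegral ℤ h ∧ gaussSum ψ e = -1 + (μ - 1) * h := by
  classical
  have hp : p.Prime := Fact.out
  have hr : r.Prime := Fact.out
  have hμi : IsIntegral ℤ μ := IsIntegral.of_pow hp.pos (by rw [hμ.pow_eq_one]; exact isIntegral_one)
  have hei : ∀ x, IsIntegral ℤ (e x) := by
    intro x
    refine IsIntegral.of_pow hr.pos ?_
    rw [← AddChar.map_nsmul_eq_pow, nsmul_eq_mul, CharP.cast_eq_zero, zero_mul,
      AddChar.map_zero_eq_one]
    exact isIntegral_one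
  have H : ∀ x : ZMod r, ∃ z : L, IsIntegral ℤ z ∧ (x ≠ 0 → ψ x - 1 = (μ - 1) * z) := by
    intro x
    by_cases hx : x = 0
    · exact ⟨0, isIntegral_zero, fun h => absurd hx h⟩
    · obtain ⟨k, -, hk⟩ := MulChar.exists_apply_eq_pow hψ hμ hx
      refine ⟨∑ i ∈ range k, μ ^ i, IsIntegral.sum _ fun i _ => hμi.pow i, fun _ => ?_⟩
      rw [hk, mul_comm, geom_sum_mul]
  choose z hz1 hz2 using H
  refine ⟨∑ x ∈ univ.erase (0 : ZMod r), z x * e x,
    IsIntegral.sum _ fun x _ => (hz1 x).mul (hei x), ?_⟩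
  have hne1 : e ≠ 1 := by
    have := he (a := 1) one_ne_zero
    rwa [AddChar.mulShift_one] at this
  have hsum : ∑ x : ZMod r, e x = 0 := AddChar.sum_eq_zero_of_ne_one hne1
  have h1 : gaussSum ψ e = ∑ x : ZMod r, (ψ x - 1) * e x := by
    simp only [sub_mul, one_mul, sum_sub_distrib, hsum, sub_zero, gaussSum]
  rw [h1, ← add_sum_erase univ _ (mem_univ (0 : ZMod r)), MulChar.map_zero, AddChar.map_zero_eq_one,
    mul_sum]
  congr 1
  · ring
  · refine sum_congr rfl fun x hx => ?_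
    rw [hz2 x (ne_of_mem_erase hx)]; ring

/-- `(-1 + λ h)^p + 1 ∈ λ^p * (integral)` when `p = u λ^(p-1)`. -/
lemma neg_one_add_pow_add_one {L : Type*} [Field L] (hp2 : p ≠ 2) {l h u : L}
    (hl : IsIntegral ℤ l) (hh : IsIntegral ℤ h) (hu : IsIntegral ℤ u)
    (hpu : (p : L) = u * l ^ (p - 1)) :
    ∃ w : L, IsIntegral ℤ w ∧ (-1 + l * h) ^ p + 1 = l ^ p * w := by
  have hp : p.Prime := Fact.out
  have hodd : Odd p := hp.odd_of_ne_two hp2
  let A := integralClosure ℤ L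
  let y : A := ⟨l * h, hl.mul hh⟩
  obtain ⟨ρ, hρ⟩ := exists_add_pow_prime_eq hp (-1 : A) y
  have hρ' : (-1 + l * h) ^ p = (-1) ^ p + (l * h) ^ p + p * (-1) * (l * h) * (ρ : L) := by
    have := congrArg (fun a : A => (a : L)) hρ
    simpa [y] using this
  refine ⟨h ^ p - u * h * ρ, (hh.pow p).sub ((hu.mul hh).mul ρ.2), ?_⟩
  rw [hρ', hodd.neg_one_pow, hpu]
  have : l ^ p = l ^ (p - 1) * l := by rw [← pow_succ, Nat.sub_add_cancel hp.one_le]
  rw [mul_pow, this]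
  ring

end domain

section cyclo

variable {p : ℕ} [Fact p.Prime] {K : Type*} [Field K] [NumberField K]
  [IsCyclotomicExtension {p} ℚ K] {r : ℕ} [Fact r.Prime]

lemma gaussPhi_add_one (hp2 : p ≠ 2) {ζ : K} (hζ : IsPrimitiveRoot ζ p)
    {ψ : MulChar (ZMod r) (𝓞 K)} (hψ : orderOf ψ = p) :
    ∃ w : 𝓞 K, gaussPhi p ψ + 1 = (hζ.toInteger - 1) ^ p * w := by
  have hp : p.Prime := Fact.out
  have hr : r.Prime := Fact.out
  obtain ⟨L, hL1, hL2, e, he⟩ := exists_field_addChar (r := r) K (by exact_mod_cast hr.ne_zero)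
  have hinjKL : Function.Injective (algebraMap K L) := RingHom.injective _
  set f : 𝓞 K →+* L := (algebraMap K L).comp (algebraMap (𝓞 K) K) with hf
  have hfinj : Function.Injective f := hinjKL.comp RingOfIntegers.coe_injective
  have hne : ψ ≠ 1 := by
    intro h; rw [h, orderOf_one] at hψ; exact hp.one_lt.ne hψ
  have ho := orderOf_ringHomComp_eq hψ f ((MulChar.ringHomComp_ne_one_iff hfinj).mpr hne)
  have hμ : IsPrimitiveRoot (f hζ.toInteger) p :=
    hζ.toInteger_isPrimitiveRoot.map_of_injective hfinj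
  obtain ⟨h, hh, hg⟩ := gaussSum_eq_neg_one_add (p := p) (by rw [← ho, pow_orderOf_eq_one]) hμ he
  obtain ⟨u, hu⟩ := IsCyclotomicExtension.Rat.associated_zeta_sub_one_pow_prime p hζ
  have hpu : (p : L) = f u * (f hζ.toInteger - 1) ^ (p - 1) := by
    have := congrArg f hu
    rw [map_mul, map_pow, map_sub, map_one, map_natCast] at this
    rw [← this, mul_comm]
  have hint : ∀ x : 𝓞 K, IsIntegral ℤ (f x) := fun x =>
    map_isIntegral_int f (RingOfIntegers.isIntegral x)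
  obtain ⟨w, hw, hw2⟩ := neg_one_add_pow_add_one (p := p) hp2
    (l := f hζ.toInteger - 1) (h := h) (u := f u)
    ((hint _).sub isIntegral_one) hh (hint _) hpu
  rw [← hg, gaussSum_pow_eq_gaussPhi ho he, gaussPhi_ringHomComp] at hw2
  have hl0 : (ζ - 1 : K) ≠ 0 := sub_ne_zero.mpr (hζ.ne_one hp.one_lt)
  have hfl : f hζ.toInteger - 1 = algebraMap K L (ζ - 1) := by
    rw [map_sub, map_one]; rfl
  have hwK : algebraMap K L ((((gaussPhi p ψ : 𝓞 K) : K) + 1) / (ζ - 1) ^ p) = w := by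
    rw [map_div₀, map_pow, ← hfl, map_add, map_one]
    have h0 : (f hζ.toInteger - 1) ^ p ≠ 0 := by
      rw [hfl]; exact pow_ne_zero _ ((map_ne_zero _).mpr hl0)
    rw [div_eq_iff h0, mul_comm, ← hw2]; rfl
  have hwint : IsIntegral ℤ ((((gaussPhi p ψ : 𝓞 K) : K) + 1) / (ζ - 1) ^ p) := by
    rw [← isIntegral_algebraMap_iff hinjKL, hwK]; exact hw
  refine ⟨⟨_, hwint⟩, ?_⟩
  apply RingOfIntegers.coe_injective
  have h0 : ((ζ - 1 : K)) ^ p ≠ 0 := pow_ne_zero _ hl0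
  show ((gaussPhi p ψ : 𝓞 K) : K) + 1 = (ζ - 1) ^ p * ((((gaussPhi p ψ : 𝓞 K) : K) + 1) / (ζ - 1) ^ p)
  field_simp

end cyclo

end GS

open GS

section final

variable {p : ℕ} [Fact p.Prime] {K : Type*} [Field K] [NumberField K]
  [IsCyclotomicExtension {p} ℚ K]

/-- For a prime `r ≡ 1 mod p`: `Φ = g(χ_𝔯)^p ∈ K`. -/
theorem exists_gauss (hp : p ≠ 2) {ζ : K} (hζ : IsPrimitiveRoot ζ p) (r : ℕ) (hr : r.Prime)
    (hr1 : r % p = 1) :
    ∃ (Φ : K) (χ : (ZMod r)ˣ →* Multiplicative (ZMod p)), Φ ≠ 0 ∧ Function.Surjective χ ∧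
      (∀ v : Pl K, ¬ Above r v → ord v Φ = 0) ∧
      (∀ (σ : K ≃ₐ[ℚ] K) (k : ℕ), σ ζ = ζ ^ k → IsPPow p (σ Φ / Φ ^ k)) ∧
      (∀ v : Pl K, Above p v → LocPow p v p Φ) ∧
      (∀ (v : Pl K), ¬ Above p v → ¬ Above r v →
        ∀ hc : (Ideal.absNorm v.asIdeal).Coprime r,
          rs p ζ v Φ = Multiplicative.toAdd (χ (ZMod.unitOfCoprime _ hc))) := by
  have hpp : p.Prime := Fact.out
  have : Fact r.Prime := ⟨hr⟩
  have hζ₀ := hζ.toInteger_isPrimitiveRoot
  have hcoe : (algebraMap (𝓞 K) K) hζ.toInteger = ζ := rfl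
  have hdvd : p ∣ Fintype.card (ZMod r) - 1 := by
    rw [ZMod.card]
    exact (Nat.modEq_iff_dvd' hr.one_le).mp (by
      rw [Nat.ModEq, hr1, Nat.mod_eq_of_lt hpp.one_lt])
  obtain ⟨ψ, hψ⟩ := MulChar.exists_mulChar_orderOf (ZMod r) hdvd hζ₀
  obtain ⟨χ, hχs, hχ⟩ := exists_chi hζ₀ hψ
  have hr0 : ((r : ℕ) : 𝓞 K) ≠ 0 := by exact_mod_cast hr.ne_zero
  have hmul := gaussPhi_mul hr0 hψ
  set Φ₀ : 𝓞 K := gaussPhi p ψ with hΦ₀
  have hΦ₀ne : Φ₀ ≠ 0 := by
    intro h; rw [h, zero_mul] at hmul; exact pow_ne_zero _ hr0 hmul.symm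
  have hΦne : (Φ₀ : K) ≠ 0 := by simpa using hΦ₀ne
  refine ⟨(Φ₀ : K), χ, hΦne, hχs, ?_, ?_, ?_, ?_⟩
  · -- support
    intro v hv
    have h2ne : gaussPhi p (ψ ^ (p - 1)) ≠ 0 := by
      intro h; rw [h, mul_zero] at hmul; exact pow_ne_zero _ hr0 hmul.symm
    have h1 := ord_nonneg_of_integer v Φ₀
    have h2 := ord_nonneg_of_integer v (gaussPhi p (ψ ^ (p - 1)))
    have h3 : ord v (Φ₀ : K) + ord v ((gaussPhi p (ψ ^ (p - 1)) : 𝓞 K) : K) = 0 := by
      rw [← ord_mul v hΦne (by simpa using h2ne)]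
      have : (Φ₀ : K) * ((gaussPhi p (ψ ^ (p - 1)) : 𝓞 K) : K) = (((r : ℕ) : 𝓞 K) : K) ^ p := by
        rw [← map_mul, hmul, map_pow]
      rw [this, ord_pow]
      have h4 : ord v (((r : ℕ) : 𝓞 K) : K) = 0 := by
        have h5 := ord_nonneg_of_integer v ((r : ℕ) : 𝓞 K)
        by_contra h6
        exact hv ((ord_pos_iff_mem v hr0).mp (lt_of_le_of_ne h5 (Ne.symm h6)))
      rw [h4, mul_zero]
    omega
  · -- Galois type
    intro σ k hσ
    have hpk : ¬ p ∣ k := by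
      intro h
      have h1 : σ ζ = 1 := by rw [hσ, (hζ.pow_eq_one_iff_dvd k).mpr h]
      have h2 : ζ = 1 := by
        apply σ.injective; rw [h1, map_one]
      exact hζ.ne_one hpp.one_lt h2
    set s : 𝓞 K →+* 𝓞 K := RingOfIntegers.mapRingHom (σ : K →+* K) with hs
    have hsζ : s hζ.toInteger = hζ.toInteger ^ k := by
      apply RingOfIntegers.coe_injective
      rw [map_pow]
      exact hσ
    have hψs : ψ.ringHomComp s = ψ ^ k := by
      ext u
      rw [MulChar.ringHomComp_apply, MulChar.pow_apply_coe]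
      obtain ⟨j, -, hj⟩ := MulChar.exists_apply_eq_pow (by rw [← hψ, pow_orderOf_eq_one]) hζ₀
        (χ := ψ) (a := (u : ZMod r)) u.ne_zero
      rw [hj, map_pow, hsζ, ← pow_mul, ← pow_mul, mul_comm]
    have hsΦ : s Φ₀ = gaussPhi p (ψ ^ (k % p)) := by
      rw [hΦ₀, ← gaussPhi_ringHomComp, hψs]
      congr 1
      rw [← hψ, pow_mod_orderOf]
    have hk0 : 0 < k % p := Nat.pos_of_ne_zero (fun h => hpk (Nat.dvd_of_mod_eq_zero h))
    have hpow := gaussPhi_pow hr0 hψ hk0 (Nat.mod_lt _ hpp.pos)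
    rw [← hΦ₀, ← hsΦ] at hpow
    set P : 𝓞 K := ∏ j ∈ Ico 1 (k % p), jacobiSum ψ (ψ ^ j) with hP
    have hσΦ : σ (Φ₀ : K) = ((s Φ₀ : 𝓞 K) : K) := rfl
    have hpowK : (Φ₀ : K) ^ (k % p) = σ (Φ₀ : K) * (P : K) ^ p := by
      rw [hσΦ, ← map_pow, ← map_pow, ← map_mul, hpow]
    have hσne : σ (Φ₀ : K) ≠ 0 := (map_ne_zero _).mpr hΦne
    have hPne : (P : K) ≠ 0 := by
      intro h
      rw [h, zero_pow hpp.ne_zero, mul_zero] at hpowK
      exact pow_ne_zero _ hΦne hpowK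
    refine ⟨((P : K) * (Φ₀ : K) ^ (k / p))⁻¹, ?_⟩
    have hk : (Φ₀ : K) ^ k = (Φ₀ : K) ^ (k % p) * ((Φ₀ : K) ^ (k / p)) ^ p := by
      rw [← pow_mul, ← pow_add, mul_comm (k / p), Nat.mod_add_div]
    rw [hk, hpowK]
    have h3 : (Φ₀ : K) ^ (k / p) ≠ 0 := pow_ne_zero _ hΦne
    rw [inv_pow, mul_pow]
    field_simp
  · -- primary
    intro v hv
    obtain ⟨w, hw⟩ := gaussPhi_add_one hp hζ hψ
    obtain ⟨lam, -, huniq, hord, -, -, -⟩ := exists_lam hζ
    obtain rfl : v = lam := huniq v hv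
    refine ⟨-1, by simp, ?_⟩
    have hodd : Odd p := hpp.odd_of_ne_two hp
    have h1 : (Φ₀ : K) / (-1) ^ p - 1 = - ((1 - ζ) ^ p * (-(w : K))) := by
      have h2 : (Φ₀ : K) + 1 = (ζ - 1) ^ p * (w : K) := by
        have := congrArg (fun x : 𝓞 K => (x : K)) hw
        simpa [hcoe] using this
      have h3 : (ζ - 1) ^ p = - (1 - ζ) ^ p := by
        rw [← hodd.neg_pow, neg_sub]
      rw [hodd.neg_one_pow, div_neg, div_one]
      linear_combination (-1 : K) * h2 + (- (w : K)) * h3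
    have hne : (1 : K) - ζ ≠ 0 := sub_ne_zero.mpr (hζ.ne_one hpp.one_lt).symm
    rw [h1, Valuation.map_neg, map_mul, map_pow, Valuation.map_neg,
      valuation_eq_exp_neg_ord v hne, hord, ← WithZero.exp_nsmul]
    calc WithZero.exp (p • (-1 : ℤ)) * v.valuation K (w : K)
        ≤ WithZero.exp (p • (-1 : ℤ)) * 1 := by
          gcongr; exact v.valuation_le_one w
      _ = WithZero.exp (-(p : ℤ)) := by rw [mul_one]; congr 1; simp
  · -- residue symbol
    intro v hvp hvr hc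
    apply rs_eq_of_valuation_lt hζ hvp
    have hmem := gaussPhi_pow_sub_mem v hvp hvr hψ (dvd_absNorm_sub_one hpp hζ v hvp) hc
    rw [hχ, ← hΦ₀] at hmem
    have := (v.valuation_lt_one_iff_mem (K := K) _).mpr hmem
    simpa [hcoe] using this

end final

end Fermat.Agent.S14
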